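/-
helper81 (P-S58, row 1097 S58-FINLEVEL): the action of `G_ℚ` on `E[n]` factors through a finite
extension.

`torsionFiniteLevel : Fermat.Agent.H51.S58.TorsionFiniteLevelStatement`.

Proof: `E[n]` is finite (`Fermat.Agent.H74.DivGen.finite_nsmul_eq_zero`); `L` is the field
generated by the coordinates of the finitely many `n`-torsion points.
-/
import Fermat.Agent.H51.S58.Interfaces
import Fermat.Agent.H74.DivGen.Count
import Fermat.Agent.H8.InertiaReduction

set_option autoImplicit false

namespace Fermat.Agent.H81.S58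

open WeierstrassCurve WeierstrassCurve.Affine Fermat.Agent.H51.S58

/-- The set of coordinates of a point. -/
def coordSet (W : WeierstrassCurve ℤ) : EPt W → Set (AlgebraicClosure ℚ)
  | .zero => ∅
  | .some x y _ => {x, y}

theorem coordSet_finite (W : WeierstrassCurve ℤ) (P : EPt W) : (coordSet W P).Finite := by
  rcases P with _ | ⟨x, y, h⟩
  · exact Set.finite_empty
  · exact (Set.finite_singleton y).insert x

/-- The discriminant of the geometric generic fibre of an integral model. -/
theorem delta_baseChange_ne_zero (W : WeierstrassCurve ℤ) (hΔ : W.Δ ≠ 0) :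
    ((W.map (Int.castRingHom ℚ))⁄(AlgebraicClosure ℚ)).Δ ≠ 0 := by
  show ((W.map (Int.castRingHom ℚ)).map (algebraMap ℚ (AlgebraicClosure ℚ))).Δ ≠ 0
  rw [WeierstrassCurve.map_Δ, WeierstrassCurve.map_Δ]
  intro h
  have h1 : (Int.castRingHom ℚ) W.Δ = 0 :=
    (algebraMap ℚ (AlgebraicClosure ℚ)).injective (by rw [h, map_zero])
  have h2 : ((W.Δ : ℤ) : ℚ) = 0 := h1
  exact hΔ (by exact_mod_cast h2)

/-- The `n`-torsion of `E(ℚ̄)` is finite. -/
theorem finite_torsion (W : WeierstrassCurve ℤ) (hΔ : W.Δ ≠ 0) (n : ℕ) (hn : 0 < n) :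
    {T : EPt W | n • T = 0}.Finite :=
  Fermat.Agent.H74.DivGen.finite_nsmul_eq_zero
    (W := ((W.map (Int.castRingHom ℚ))⁄(AlgebraicClosure ℚ)).toAffine)
    (two_ne_zero) (delta_baseChange_ne_zero W hΔ) hn (by exact_mod_cast hn.ne')

/-- **FIN-LEVEL** (row 1097). -/
theorem torsionFiniteLevel : TorsionFiniteLevelStatement := by
  intro W hΔ n hn
  have hfin := finite_torsion W hΔ n hn
  set X : Set (AlgebraicClosure ℚ) := ⋃ T ∈ {T : EPt W | n • T = 0}, coordSet W T with hX
  have hXfin : X.Finite := hfin.biUnion fun T _ => coordSet_finite W T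
  refine ⟨IntermediateField.adjoin ℚ X, ?_, ?_⟩
  · have hXf : Finite X := hXfin
    have halg : Algebra.IsAlgebraic ℚ (AlgebraicClosure ℚ) := AlgebraicClosure.isAlgebraic ℚ
    exact IntermediateField.finiteDimensional_adjoin
      (fun x _ => (halg.isAlgebraic x).isIntegral)
  · intro σ hσ P hP
    rcases P with _ | ⟨x, y, h⟩
    · rfl
    · have hmem : coordSet W (Point.some x y h) ⊆ X := by
        intro z hz
        exact Set.mem_biUnion (show (Point.some x y h : EPt W) ∈ {T : EPt W | n • T = 0} from hP) hz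
      have hx : σ x = x :=
        hσ x (IntermediateField.subset_adjoin ℚ X (hmem (by simp [coordSet])))
      have hy : σ y = y :=
        hσ y (IntermediateField.subset_adjoin ℚ X (hmem (by simp [coordSet])))
      rw [Fermat.Agent.H8.algEquiv_smul_some]
      simp only [hx, hy]

end Fermat.Agent.H81.S58
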