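/-
helper81 (P-S58, row 1101 S58-LOCAL): inertia at `q` fixes the torsion points of order prime to
`q` with nonsingular reduction (any integral model, any `q`), and at a prime of good reduction
every torsion point of order prime to `q` has nonsingular reduction.

* `inertiaGoodRed : Fermat.Agent.H51.S58.InertiaGoodRedStatement`
* `goodRedAll : Fermat.Agent.H51.S58.GoodRedAllStatement`
-/
import Fermat.Agent.H51.S58.Interfaces
import Fermat.Agent.H8.InertiaReduction
import Fermat.Agent.H26.KernelReduction
import Fermat.Agent.H4.FrobRel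

set_option autoImplicit false

namespace Fermat.Agent.H81.S58

open WeierstrassCurve WeierstrassCurve.Affine Fermat.Agent.H51.S58

/-- The coefficients of the geometric generic fibre of an integral model are integral at every
valuation subring. -/
theorem isIntegralAt_model (W : WeierstrassCurve ℤ)
    (A : ValuationSubring (AlgebraicClosure ℚ)) :
    Fermat.Agent.H26.IsIntegralAt A.valuation
      ((W.map (Int.castRingHom ℚ))⁄(AlgebraicClosure ℚ)).toAffine := by
  rw [← Fermat.Agent.H4.map_subtype_eq A W]
  refine ⟨?_, ?_, ?_, ?_, ?_⟩ <;>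
  · rw [A.valuation_le_one_iff]
    simp only [WeierstrassCurve.map_a₁, WeierstrassCurve.map_a₂, WeierstrassCurve.map_a₃,
      WeierstrassCurve.map_a₄, WeierstrassCurve.map_a₆]
    exact SetLike.coe_mem ((Int.castRingHom A) _)

/-- Galois conjugation commutes with multiplication by `n`. -/
theorem nsmul_galois_smul (W : WeierstrassCurve ℤ) (σ : GQ) (n : ℕ) (P : EPt W) :
    n • (σ • P) = σ • (n • P) := by
  have h := Point.algEquiv_smul_zsmul (W' := (W.map (Int.castRingHom ℚ)).toAffine) σ (n : ℤ) P
  rw [natCast_zsmul, natCast_zsmul] at h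
  exact h.symm

/-- **INERTIA-E0** (row 1101). -/
theorem inertiaGoodRed : InertiaGoodRedStatement := by
  intro W q hq A hA σ hσ n hqn hn P hP hgood
  rcases P with _ | ⟨x, y, h⟩
  · rfl
  · obtain ⟨hx, hy, hns⟩ := hgood
    have hW := isIntegralAt_model W A
    have key := Fermat.Agent.H8.inertia_smul_sub_of_nonsingular_reduction
      (S := ℚ) (W' := (W.map (Int.castRingHom ℚ)).toAffine) A
      ((A.valuation_le_one_iff _).mp hW.a₁) ((A.valuation_le_one_iff _).mp hW.a₂)
      ((A.valuation_le_one_iff _).mp hW.a₃) ((A.valuation_le_one_iff _).mp hW.a₄)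
      hσ h hx hy hns
    have hv : A.valuation ((n : ℕ) : AlgebraicClosure ℚ) = 1 :=
      Fermat.Agent.H4.valuation_natCast_eq_one A hq hA hqn
    have htors : n • (σ • (Point.some x y h : EPt W) - Point.some x y h) = 0 := by
      rw [nsmul_sub, nsmul_galois_smul, hP]
      exact sub_self _
    have hzero : σ • (Point.some x y h : EPt W) - Point.some x y h = 0 := by
      rcases key with h0 | ⟨x₃, y₃, h₃, heq, hx₃⟩
      · exact h0
      · have hker : Fermat.Agent.H26.InKer A.valuation
            (σ • (Point.some x y h : EPt W) - Point.some x y h) := by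
          rw [heq]
          exact not_le.mp fun hle => hx₃ ((A.valuation_le_one_iff _).mp hle)
        exact Fermat.Agent.H26.eq_zero_of_nsmul_eq_zero hW hker hv htors
    exact sub_eq_zero.mp hzero

/-- **GOOD-ALL** (row 1101). -/
theorem goodRedAll : GoodRedAllStatement := by
  intro W q hq hgood A hA n hqn hn P hP
  classical
  have hfact : Fact q.Prime := ⟨hq⟩
  have hchar : CharP (IsLocalRing.ResidueField A) q := Fermat.Agent.H4.charP_residueField A hq hA
  let _ : Algebra (ZMod q) (IsLocalRing.ResidueField A) := ZMod.algebra _ q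
  rcases P with _ | ⟨x, y, h⟩
  · trivial
  · have hx : x ∈ A := by
      by_contra hx
      have h0 := Fermat.Agent.H4.redAt_some_of_not_mem A W hA hgood h hx
      have := Fermat.Agent.H4.eq_zero_of_redAt_eq_zero A W hA hgood hqn hP h0
      exact Point.some_ne_zero h this
    obtain ⟨hy, h', -⟩ := Fermat.Agent.H4.redAt_some_of_mem A W hA hgood h hx
    refine ⟨hx, hy, ?_⟩
    rw [← Fermat.Agent.H4.map_residue_eq A W, WeierstrassCurve.Affine.nonsingular_iff'] at h'
    obtain ⟨-, h'⟩ := h'
    simp only [WeierstrassCurve.map_a₁, WeierstrassCurve.map_a₂, WeierstrassCurve.map_a₃,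
      WeierstrassCurve.map_a₄] at h'
    rw [← Fermat.Agent.H4.map_subtype_eq A W]
    simp only [WeierstrassCurve.map_a₁, WeierstrassCurve.map_a₂, WeierstrassCurve.map_a₃,
      WeierstrassCurve.map_a₄]
    set X : A := ⟨x, hx⟩ with hX
    set Y : A := ⟨y, hy⟩ with hY
    set WA := W.map (Int.castRingHom A) with hWA
    have hxX : A.subtype X = x := rfl
    have hyY : A.subtype Y = y := rfl
    have e1 : A.subtype (WA.a₁ * Y - (3 * X ^ 2 + 2 * WA.a₂ * X + WA.a₄)) =
        A.subtype WA.a₁ * y - (3 * x ^ 2 + 2 * A.subtype WA.a₂ * x + A.subtype WA.a₄) := by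
      simp only [map_sub, map_add, map_mul, map_pow, map_ofNat, hxX, hyY]
    have e2 : A.subtype (2 * Y + WA.a₁ * X + WA.a₃) =
        2 * y + A.subtype WA.a₁ * x + A.subtype WA.a₃ := by
      simp only [map_add, map_mul, map_ofNat, hxX, hyY]
    have hres : ∀ a : A, A.subtype a ∈ A.nonunits → IsLocalRing.residue A a = 0 :=
      fun a ha => (Fermat.Agent.H4.isResidueMap_residue A a).mpr ((A.mem_nonunits_iff).mp ha)
    rcases h' with h1 | h2
    · left
      intro hmem
      apply h1
      have h3 := hres _ (e1 ▸ hmem)
      simp only [map_sub, map_add, map_mul, map_pow, map_ofNat] at h3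
      exact h3
    · right
      intro hmem
      apply h2
      have h3 := hres _ (e2 ▸ hmem)
      simp only [map_add, map_mul, map_ofNat] at h3
      exact h3

end Fermat.Agent.H81.S58
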